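import Fermat.Agent.Ord.NewCyc
import Fermat.Agent.LevelRaise.Lift
import Fermat.Agent.PRem.BLR

/-!
# Eigenclasses and eigenforms
-/

set_option autoImplicit false
set_option linter.unusedSectionVars false
set_option linter.style.haveILetI false

noncomputable section

namespace Fermat.Agent.SSR

open ModularCurve Fermat.Agent.PRem Fermat.Agent.Kum

/-- torsion-freeness of the Hecke algebra -/
theorem hecke_tf {M : ℕ} [NeZero M] {S : Set ℕ} (n : ℤ) (t : CuspForm.heckeAlgebra M 2 S)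
    (hn : n ≠ 0) (ht : (n : CuspForm.heckeAlgebra M 2 S) * t ∈
      (⊥ : Ideal (CuspForm.heckeAlgebra M 2 S))) :
    t ∈ (⊥ : Ideal (CuspForm.heckeAlgebra M 2 S)) := by
  rw [Ideal.mem_bot] at ht ⊢
  rw [← zsmul_eq_mul] at ht
  apply Subtype.ext
  refine LinearMap.ext fun x => ?_
  have h1 := congrArg (fun u : CuspForm.heckeAlgebra M 2 S =>
    (u : Module.End ℂ (CuspForm (CongruenceSubgroup.Gamma0 M) 2)) x) ht
  have h2 : ((n • t : CuspForm.heckeAlgebra M 2 S) :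
      Module.End ℂ (CuspForm (CongruenceSubgroup.Gamma0 M) 2)) x =
      (n : ℂ) • ((t : Module.End ℂ (CuspForm (CongruenceSubgroup.Gamma0 M) 2)) x) := by
    rw [Int.cast_smul_eq_zsmul]
    rfl
  have h3 : (n : ℂ) • ((t : Module.End ℂ (CuspForm (CongruenceSubgroup.Gamma0 M) 2)) x) = 0 :=
    h2.symm.trans h1
  exact (smul_eq_zero.1 h3).resolve_left (Int.cast_ne_zero.2 hn)

/-- **eigenclasses come from eigenforms** -/
theorem conc_of_eig {M p : ℕ} [NeZero M] [hp : Fact p.Prime] {c : ℕ → ℤ} {P : ℕ → Prop}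
    {v : XL M p} (hv : v ≠ 0) (h : ∀ (ℓ : ℕ) (hℓ : ℓ.Prime) (hℓM : ¬ ℓ ∣ M), P ℓ →
      actX M p ∅ (CuspForm.heckeAlgebra.T hℓ hℓM (Set.notMem_empty ℓ)) v = c ℓ • v) :
    CONC p M c P := by
  let T := CuspForm.heckeAlgebra M 2 ∅
  let I : Ideal T :=
    { carrier := {t | actX M p ∅ t v = 0}
      add_mem' := fun {a b} ha hb => by
        change actX M p ∅ (a + b) v = 0
        rw [map_add]
        exact (congrArg₂ (· + ·) ha hb).trans (add_zero _)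
      zero_mem' := by
        change actX M p ∅ 0 v = 0
        rw [map_zero]
        rfl
      smul_mem' := fun c a ha => by
        change actX M p ∅ (c * a) v = 0
        rw [map_mul]
        exact (congrArg (actX M p ∅ c) ha).trans (map_zero _) }
  have hI : ∀ t : T, t ∈ I ↔ actX M p ∅ t v = 0 := fun t => Iff.rfl
  have hI1 : I ≠ ⊤ := by
    rw [Ideal.ne_top_iff_one, hI, map_one]
    exact hv
  obtain ⟨𝔑, h𝔑, hI𝔑⟩ := Ideal.exists_le_maximal I hI1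
  haveI := h𝔑
  haveI : Module.Finite ℤ T := Fermat.Agent.S22.result M 2 ∅
  obtain ⟨χ, 𝔐, -, h𝔐, hcomap⟩ := LevelRaise.exists_char_of_quot (⊥ : Ideal T)
    (fun n t hn ht => hecke_tf n t hn ht) 𝔑 bot_le
  obtain ⟨g, hg, hgT, -⟩ := LevelRaise.exists_form_of_char (N := M)
    ((algebraMap (integralClosure ℤ ℂ) ℂ).comp χ)
  have hmem : ∀ t : T, t ∈ I → χ t ∈ 𝔐 := fun t ht => by
    have h1 := hI𝔑 ht
    rw [← hcomap] at h1
    exact h1
  have hint : ∀ n : ℤ, actX M p ∅ (n : T) v = n • v := by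
    intro n
    rw [map_intCast]
    rfl
  refine ⟨g, hg, 𝔐, h𝔐, ?_, fun ℓ hℓ hℓM hPℓ => ?_⟩
  · have h1 := hmem ((p : ℤ) : T) (by
      rw [hI, hint, natCast_zsmul]
      exact nsmul_XL v)
    rw [map_intCast, Int.cast_natCast] at h1
    exact h1
  · refine ⟨χ (CuspForm.heckeAlgebra.T hℓ hℓM (Set.notMem_empty _)), (hgT ℓ hℓ hℓM).symm, ?_⟩
    have h2 := hmem (CuspForm.heckeAlgebra.T hℓ hℓM (Set.notMem_empty _) - ((c ℓ : ℤ) : T)) (by
      rw [hI, map_sub]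
      change actX M p ∅ _ v - actX M p ∅ _ v = 0
      rw [hint, h ℓ hℓ hℓM hPℓ, sub_self])
    rw [map_sub, map_intCast] at h2
    exact h2

/-- the Hecke algebra acts on eigenclasses through a character -/
theorem act_eig {N p : ℕ} [NeZero N] [hp : Fact p.Prime] {S : Set ℕ} (hS : ∀ q, q ∣ N → q ∈ S)
    {c : ℕ → ℤ} {v : XL N p} (hv : ∀ (ℓ : ℕ) (hℓ : ℓ.Prime) (hℓS : ℓ ∉ S),
      actX N p S (CuspForm.heckeAlgebra.T hℓ (fun h => hℓS (hS ℓ h)) hℓS) v = c ℓ • v)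
    {ψ : CuspForm.heckeAlgebra N 2 S →+* ZMod p} (hψ : ∀ (l : ℕ) (hl : l.Prime) (hlS : l ∉ S),
      ψ (CuspForm.heckeAlgebra.T hl (fun h => hlS (hS l h)) hlS) = ((c l : ℤ) : ZMod p))
    (t : CuspForm.heckeAlgebra N 2 S) :
    ∃ n : ℤ, actX N p S t v = n • v ∧ ψ t = (n : ZMod p) := by
  obtain ⟨t, ht⟩ := t
  induction ht using Algebra.adjoin_induction with
  | mem x hx =>
    rcases hx with ⟨ℓ, hℓ, hℓN, hℓS, rfl⟩ | ⟨q, hqN, hq, hqS, rfl⟩
    · exact ⟨c ℓ, hv ℓ hℓ hℓS, hψ ℓ hℓ hℓS⟩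
    · exact absurd (hS q hqN) hqS
  | algebraMap n =>
    have h1 : (⟨algebraMap ℤ _ n, Subalgebra.algebraMap_mem _ n⟩ : CuspForm.heckeAlgebra N 2 S) =
      ((n : ℤ) : CuspForm.heckeAlgebra N 2 S) := by
      apply Subtype.ext
      simp
    refine ⟨n, ?_, ?_⟩
    · rw [h1, map_intCast]; rfl
    · rw [h1, map_intCast]
  | add x y hx hy ihx ihy =>
    have h1 : (⟨x + y, add_mem hx hy⟩ : CuspForm.heckeAlgebra N 2 S) = ⟨x, hx⟩ + ⟨y, hy⟩ := rfl
    obtain ⟨m, hm, hm'⟩ := ihx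
    obtain ⟨n, hn, hn'⟩ := ihy
    refine ⟨m + n, ?_, ?_⟩
    · rw [h1, map_add, add_smul, ← hm, ← hn]; rfl
    · rw [h1, map_add, hm', hn', Int.cast_add]
  | mul x y hx hy ihx ihy =>
    have h1 : (⟨x * y, mul_mem hx hy⟩ : CuspForm.heckeAlgebra N 2 S) = ⟨x, hx⟩ * ⟨y, hy⟩ := rfl
    obtain ⟨m, hm, hm'⟩ := ihx
    obtain ⟨n, hn, hn'⟩ := ihy
    refine ⟨m * n, ?_, ?_⟩
    · rw [h1, map_mul]
      change actX N p S _ (actX N p S _ v) = _
      rw [hn, map_zsmul, hm, ← mul_smul, mul_comm]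
    · rw [h1, map_mul, hm', hn', Int.cast_mul]

end Fermat.Agent.SSR
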