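import Fermat.Agent.SSR.Line
import Fermat.Agent.SSR.Eig

/-!
# Removing `p` from the level: curves with all `p`-torsion in the kernel of reduction
-/

set_option autoImplicit false
set_option linter.unusedSectionVars false
set_option linter.style.haveILetI false

noncomputable section

namespace Fermat.Agent.SSR

open WeierstrassCurve WeierstrassCurve.Affine WeierstrassCurve.Affine.Point Module
open Fermat.Agent.EC Fermat.Agent.Flat Fermat.Agent.Places Fermat.Agent.PRem Fermat.Agent.CL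
open Fermat.Agent.GalRep

local notation "Ω" => AlgebraicClosure ℚ

variable {W : WeierstrassCurve ℤ} {p : ℕ} [hp : Fact p.Prime]
  {A : ValuationSubring (AlgebraicClosure ℚ)}

theorem nsmul_TE {E : WeierstrassCurve ℚ} (Q : TE E p) : p • (Q : (E⁄Ω).Point) = 0 := by
  have := (Submodule.mem_torsionBy_iff (p : ℤ) (Q : (E⁄Ω).Point)).mp Q.2
  rwa [natCast_zsmul] at this

/-- no line stable under inertia -/
theorem no_line (hΔ : W.Δ ≠ 0) (hp2 : p ≠ 2) (hA : A.LiesOverPrime p)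
    (hss : ∀ P : ((EQ W)⁄Ω).Point, P ≠ 0 → p • P = 0 → xc P ∉ A) {Q : TE (EQ W) p} (hQ : Q ≠ 0) :
    ∃ σ ∈ A.inertiaSubgroupIn ℚ, ∀ n : ℤ, σ • Q ≠ n • Q := by
  by_contra hcon
  push Not at hcon
  haveI := isElliptic_EQ hΔ
  have hQ0 : (Q : ((EQ W)⁄Ω).Point) ≠ 0 := fun h => hQ (Subtype.ext h)
  obtain ⟨Q', hQ'⟩ := exists_not_mem (E := EQ W) hp2 Q
  have hQ'0 : (Q' : ((EQ W)⁄Ω).Point) ≠ 0 := fun h => hQ' 0 (by
    rw [zero_smul]; exact Subtype.ext h)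
  have hmem : ∀ {P : ((EQ W)⁄Ω).Point}, P ∈ AddSubgroup.zmultiples (Q : ((EQ W)⁄Ω).Point) →
      p • P = 0 := by
    rintro _ ⟨n, rfl⟩
    change p • (n • (Q : ((EQ W)⁄Ω).Point)) = 0
    rw [smul_comm, nsmul_TE]
    exact zsmul_zero n
  have hfin : Finite (AddSubgroup.zmultiples (Q : ((EQ W)⁄Ω).Point)) := by
    haveI := finite_TE (E := EQ W) (p := p) hp2
    refine Finite.of_injective (β := TE (EQ W) p) (fun P => ⟨P.1, by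
      rw [Submodule.mem_torsionBy_iff, natCast_zsmul]; exact hmem P.2⟩) fun P P' h => ?_
    exact Subtype.ext (congrArg (fun z : TE (EQ W) p => (z : ((EQ W)⁄Ω).Point)) h)
  have h1 := mem_line (W := EQ W) hA (isInt_EQ W A.valuation) hp2
    (N := AddSubgroup.zmultiples (Q : ((EQ W)⁄Ω).Point)) (fun P hP => hmem hP)
    ⟨Q, AddSubgroup.mem_zmultiples _, hQ0⟩ hfin ?_ (fun P hP hP0 => hss P hP0 (hmem hP))
    (nsmul_TE Q') hQ'0 (hss _ hQ'0 (nsmul_TE Q'))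
  · obtain ⟨n, hn⟩ := h1
    exact hQ' n (Subtype.ext hn.symm)
  · rintro σ hσ _ ⟨n, rfl⟩
    obtain ⟨m, hm⟩ := hcon σ hσ
    have h2 : σ • (Q : ((EQ W)⁄Ω).Point) = m • (Q : ((EQ W)⁄Ω).Point) := congrArg Subtype.val hm
    change σ • (n • (Q : ((EQ W)⁄Ω).Point)) ∈ _
    have h3 : σ • (n • (Q : ((EQ W)⁄Ω).Point)) = n • σ • (Q : ((EQ W)⁄Ω).Point) :=
      map_zsmul (DistribSMul.toAddMonoidHom ((EQ W)⁄Ω).Point σ) n _
    rw [h3, h2]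
    exact AddSubgroup.zsmul_mem _ (AddSubgroup.zsmul_mem _ (AddSubgroup.mem_zmultiples _) m) n

theorem conc_ss (hΔ : W.Δ ≠ 0) (hp2 : p ≠ 2) (hirr : W.ModRepIsIrreducible p)
    {M : ℕ} [NeZero M] (hpM : ¬ p ∣ M) (hA : A.LiesOverPrime p)
    (hss : ∀ P : ((EQ W)⁄Ω).Point, P ≠ 0 → p • P = 0 → xc P ∉ A)
    {f : CuspForm (CongruenceSubgroup.Gamma0 (p * M)) 2} (hf : f.IsNormalizedEigenform)
    {𝔪 : Ideal (integralClosure ℤ ℂ)} (h𝔪 : 𝔪.IsMaximal) (hp𝔪 : (p : integralClosure ℤ ℂ) ∈ 𝔪)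
    (hcong : ∀ ℓ : ℕ, ℓ.Prime → W.IsGoodPrimeFor ℓ → ¬ ℓ ∣ p * M → ℓ ≠ p →
      ∃ b : integralClosure ℤ ℂ, (b : ℂ) = ModularFormClass.qCoeff f ℓ ∧
        b - ((W.apOfModel ℓ : ℤ) : integralClosure ℤ ℂ) ∈ 𝔪) :
    CONC p M (fun ℓ => W.apOfModel ℓ) (fun ℓ => W.IsGoodPrimeFor ℓ ∧ ℓ ≠ p) := by
  by_contra hC
  haveI := isElliptic_EQ hΔ
  obtain ⟨ι⟩ := RedMod.exists_ιC
  obtain ⟨κ, hκ, hκσ, hκT⟩ := exists_blr (N := p * M) ι (isIntegralModelOf_EQ W) hp2 hirr hf h𝔪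
    hp𝔪 hcong
  obtain ⟨ℓ₀, hℓ₀, hℓ₀N, hℓ₀p, hℓ₀W, hne⟩ := exists_not_eis hp2 (isIntegralModelOf_EQ W) hirr (p * M)
    (NeZero.ne _)
  let S : Set ℕ := {q | q ∣ p * M ∨ ¬ W.IsGoodPrimeFor q}
  have hS : ∀ q, q ∣ p * M → q ∈ S := fun q hq => Or.inl hq
  have hpS : p ∈ S := Or.inl (dvd_mul_right p M)
  have hSg : ∀ q, q ∉ S → W.IsGoodPrimeFor q := fun q hq => by
    by_contra h
    exact hq (Or.inr h)
  obtain ⟨ψ, hψ⟩ := exists_psi (S := S) (hS := hS) (a := fun l => W.apOfModel l) hf h𝔪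
    hp𝔪 (fun ℓ hℓ hℓS => hcong ℓ hℓ (hSg ℓ hℓS) (fun h => hℓS (hS ℓ h))
      (fun h => hℓS (by rw [h]; exact hpS)))
  obtain ⟨K, tr, trw, hKT, hKI, hσ, hT, hnew⟩ := Ord.exists_new hpM hA ι (S := S)
    (fun q _ h => hS q h)
  -- the traces vanish
  have htr : ∀ Q, tr (κ Q) = 0 ∧ trw (κ Q) = 0 := by
    intro Q
    refine ⟨?_, ?_⟩
    · by_contra h0
      refine hC (conc_of_eig h0 fun ℓ hℓ hℓM hP => ?_)
      have hℓN : ¬ ℓ ∣ p * M := by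
        rw [Nat.Prime.dvd_mul hℓ, Nat.prime_dvd_prime_iff_eq hℓ hp.out]
        exact not_or.2 ⟨hP.2, hℓM⟩
      have hℓS : ℓ ∉ S := by
        rintro (h | h)
        · exact hℓN h
        · exact h hP.1
      rw [← (hT ℓ hℓ hℓN hℓM hℓS ∅ (Set.notMem_empty ℓ) (κ Q)).1,
        hκT S ℓ hℓ hℓN hℓS hP.2 hP.1 Q, map_zsmul]
    · by_contra h0
      refine hC (conc_of_eig h0 fun ℓ hℓ hℓM hP => ?_)
      have hℓN : ¬ ℓ ∣ p * M := by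
        rw [Nat.Prime.dvd_mul hℓ, Nat.prime_dvd_prime_iff_eq hℓ hp.out]
        exact not_or.2 ⟨hP.2, hℓM⟩
      have hℓS : ℓ ∉ S := by
        rintro (h | h)
        · exact hℓN h
        · exact h hP.1
      rw [← (hT ℓ hℓ hℓN hℓM hℓS ∅ (Set.notMem_empty ℓ) (κ Q)).2,
        hκT S ℓ hℓ hℓN hℓS hP.2 hP.1 Q, map_zsmul]
  -- the classes have trivial reduction
  have hfr : finrank (ZMod p) (TE (EQ W) p) = 2 := finrank_TE hp2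
  haveI := finite_TE (E := EQ W) (p := p) hp2
  haveI : Nontrivial (TE (EQ W) p) := nontrivial_of_finrank_pos (R := ZMod p) (by omega)
  obtain ⟨Q₁, hQ₁⟩ := exists_ne (0 : TE (EQ W) p)
  have hsub : ∀ σ ∈ A.inertiaSubgroupIn ℚ, ∀ Q, κ (σ • Q - Q) ∈ K := fun σ hσ Q => by
    rw [map_sub, hκσ]
    exact hKI σ hσ _
  have hex : ∃ R : TE (EQ W) p, R ≠ 0 ∧ κ R ∈ K := by
    obtain ⟨σ, hσI, hσ1⟩ := no_line hΔ hp2 hA hss hQ₁
    exact ⟨σ • Q₁ - Q₁, fun h => hσ1 1 (by rw [one_smul]; exact sub_eq_zero.1 h), hsub σ hσI _⟩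
  obtain ⟨R, hR0, hRK⟩ := hex
  -- conclusion
  have h𝔫 : (RingHom.ker ψ).IsMaximal :=
    RingHom.ker_isMaximal_of_surjective ψ (ZMod.ringHom_surjective ψ)
  have heig : ∀ t, ∃ n : ℤ, Kum.actX (p * M) p S t (κ R) = n • κ R ∧ ψ t = (n : ZMod p) :=
    act_eig hS (c := fun l => W.apOfModel l) (fun ℓ hℓ hℓS =>
      hκT S ℓ hℓ (fun h => hℓS (hS ℓ h)) hℓS (fun h => hℓS (by rw [h]; exact hpS)) (hSg ℓ hℓS) R) hψ
  have hℓ₀S : ℓ₀ ∉ S := by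
    rintro (h | h)
    · exact hℓ₀N h
    · exact h hℓ₀W
  obtain ⟨τ, hτ, hτn⟩ := no_line hΔ hp2 hA hss hR0
  have h1 := hnew (RingHom.ker ψ) h𝔫 ℓ₀ hℓ₀ hℓ₀N hℓ₀S (by
    rw [RingHom.mem_ker, map_sub, hψ ℓ₀ hℓ₀ hℓ₀S, map_natCast]
    intro h0
    apply hne
    rw [← ZMod.intCast_zmod_eq_zero_iff_dvd]
    push_cast at h0 ⊢
    linear_combination h0) (fun σ => (cyc p σ).val) (fun σ ζ hζ => apply_eq_pow_cyc p σ hζ) (κ R)
    hRK (fun s hs => by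
      obtain ⟨n, hn, hn'⟩ := heig s
      rw [RingHom.mem_ker, hn', ZMod.intCast_zmod_eq_zero_iff_dvd] at hs
      obtain ⟨m, rfl⟩ := hs
      rw [hn, mul_smul (p : ℤ) m (κ R), natCast_zsmul]
      exact nsmul_XL _) (htr R).1 (htr R).2 τ hτ
  rw [← hκσ, ← map_nsmul] at h1
  exact hτn ((cyc p τ).val : ℤ) (by rw [natCast_zsmul]; exact hκ h1)

/-- **(III-c)**: removing `p` from the level -/
theorem ss_removal (W : WeierstrassCurve ℤ) (hΔ : W.Δ ≠ 0) {p : ℕ} [hp : Fact p.Prime]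
    (hp2 : p ≠ 2) (hirr : W.ModRepIsIrreducible p) {M : ℕ} (hM : 0 < M) (hpM : ¬ p ∣ M)
    {A : ValuationSubring (AlgebraicClosure ℚ)} (hA : A.LiesOverPrime p)
    (hss : ∀ P : ((EQ W)⁄Ω).Point, P ≠ 0 → p • P = 0 → xc P ∉ A)
    (hmod : W.IsResiduallyModularOfLevel p (p * M)) : W.IsResiduallyModularOfLevel p M := by
  haveI : NeZero M := ⟨hM.ne'⟩
  obtain ⟨f, 𝔪, hf, h𝔪, hp𝔪, hcong⟩ := hmod
  obtain ⟨g, hg, 𝔪', h𝔪', hp𝔪', h⟩ := conc_ss hΔ hp2 hirr hpM hA hss hf h𝔪 hp𝔪 hcong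
  exact ⟨g, 𝔪', hg, h𝔪', hp𝔪', fun ℓ hℓ hgood hℓM hℓp => h ℓ hℓ hℓM ⟨hgood, hℓp⟩⟩

end Fermat.Agent.SSR
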