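import Fermat.Agent.EC.StableLine
import Fermat.Agent.Flat.Dvr
import Fermat.Agent.CL.Model

/-!
# If all `p`-torsion points are in the formal group, there is no line stable under inertia
-/

set_option autoImplicit false
set_option linter.unusedSectionVars false
set_option linter.style.haveILetI false

noncomputable section

namespace Fermat.Agent.SSR

open WeierstrassCurve WeierstrassCurve.Affine Fermat.Agent.EC Fermat.Agent.Flat Fermat.Agent.Places

local notation "Ω" => AlgebraicClosure ℚ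

variable {A : ValuationSubring (AlgebraicClosure ℚ)} {p : ℕ} [hp : Fact p.Prime]

theorem one_le_of_fixed (hA : A.LiesOverPrime p) {z : Ω}
    (hz : ∀ σ ∈ A.inertiaSubgroupIn ℚ, σ z = z) (h1 : 1 < A.valuation z) :
    1 ≤ A.valuation (p : Ω) * A.valuation z := by
  have hz0 : z ≠ 0 := by
    rintro rfl
    rw [map_zero] at h1
    exact not_lt_zero h1
  have hzA : z⁻¹ ∈ A.nonunits := by
    rw [ValuationSubring.mem_nonunits_iff, map_inv₀]
    exact inv_lt_one_of_one_lt₀ h1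
  obtain ⟨y, hy, h⟩ := nonunits_R0 hA (x := z⁻¹) ((K0 A).inv_mem
    ((IntermediateField.mem_fixedField_iff _ _).2 fun σ hσ => hz σ hσ)) hzA
  have h2 : A.valuation y ≤ 1 := (A.valuation_le_one_iff y).2 hy.1
  have h3 : (1 : Ω) = p * z * y := by
    rw [mul_right_comm, ← h, inv_mul_cancel₀ hz0]
  have h4 := congrArg A.valuation h3
  rw [map_one, map_mul, map_mul] at h4
  calc 1 = A.valuation (p : Ω) * A.valuation z * A.valuation y := h4
    _ ≤ A.valuation (p : Ω) * A.valuation z := mul_le_of_le_one_right' h2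

variable {W : Affine ℚ}

theorem smul_pt_ne (σ : Ω ≃ₐ[ℚ] Ω) {P : (W⁄Ω).Point} (hP : P ≠ 0) : σ • P ≠ 0 := by
  intro h0
  apply hP
  rcases P with _ | ⟨x, y, h⟩
  · rfl
  · exact absurd h0 (by
      intro h1
      cases h1)

theorem prod_fixed {N : AddSubgroup (W⁄Ω).Point} {S : Finset Ω}
    (hS : ∀ x, x ∈ S ↔ ∃ P ∈ N, P ≠ 0 ∧ xc P = x) {σ : Ω ≃ₐ[ℚ] Ω}
    (hstab : ∀ P ∈ N, σ • P ∈ N) : σ (∏ x ∈ S, x) = ∏ x ∈ S, x := by
  classical
  rw [map_prod]
  have himg : S.image σ = S := by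
    apply Finset.eq_of_subset_of_card_le
    · intro x hx
      obtain ⟨x', hx', rfl⟩ := Finset.mem_image.mp hx
      obtain ⟨P, hP, hP0, rfl⟩ := (hS x').mp hx'
      rw [hS]
      exact ⟨σ • P, hstab P hP, smul_pt_ne σ hP0, xc_smul σ hP0⟩
    · rw [Finset.card_image_of_injective _ σ.injective]
  conv_rhs => rw [← himg]
  rw [Finset.prod_image (fun _ _ _ _ h => σ.injective h)]

/-- all torsion points in the formal group are on an inertia stable line -/
theorem mem_line (hA : A.LiesOverPrime p) (hI : IsInt A.valuation (W⁄Ω)) (hp2 : p ≠ 2)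
    {N : AddSubgroup (W⁄Ω).Point} (hNp : ∀ P ∈ N, p • P = 0) (hN0 : ∃ P ∈ N, P ≠ 0)
    (hNf : Finite N) (hstab : ∀ σ ∈ A.inertiaSubgroupIn ℚ, ∀ P ∈ N, σ • P ∈ N)
    (hNE : ∀ P ∈ N, P ≠ 0 → xc P ∉ A) {Q : (W⁄Ω).Point} (hQp : p • Q = 0) (hQ0 : Q ≠ 0)
    (hQ : xc Q ∉ A) : Q ∈ N := by
  classical
  by_contra hQN
  have hodd : Odd p := hp.out.odd_of_ne_two hp2
  have hp0 : (p : Ω) ≠ 0 := by exact_mod_cast hp.out.ne_zero
  have hlt : ∀ x : Ω, x ∉ A → 1 < A.valuation x := fun x hx => by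
    rw [← not_le, A.valuation_le_one_iff]; exact hx
  obtain ⟨S, hS⟩ := exists_xset hNf
  have hxQ : xc Q ∉ S := by
    intro hmem
    obtain ⟨P, hP, hP0, he⟩ := (hS _).mp hmem
    rcases eq_or_eq_neg_of_xc_eq hP0 hQ0 he with h | h
    · rw [h] at hP; exact hQN hP
    · rw [h] at hP; exact hQN (by simpa using N.neg_mem hP)
  have hS1 : ∀ x ∈ S, 1 < A.valuation x := by
    intro x hx
    obtain ⟨P, hP, hP0, rfl⟩ := (hS x).mp hx
    exact hlt _ (hNE P hP hP0)
  have h1 := hI.prod_xc_le hodd hp0 (S := insert (xc Q) S) (by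
    intro x hx
    rcases Finset.mem_insert.mp hx with rfl | hx
    · exact (hlt _ hQ).le
    · exact (hS1 x hx).le) (by
    intro x hx
    rcases Finset.mem_insert.mp hx with rfl | hx
    · exact ⟨Q, hQ0, hQp, rfl⟩
    · obtain ⟨P, hP, hP0, he⟩ := (hS x).mp hx
      exact ⟨P, hP0, hNp P hP, he⟩)
  rw [Finset.prod_insert hxQ, ← map_prod] at h1
  have hr1 : 1 < A.valuation (∏ x ∈ S, x) := by
    rw [map_prod]
    obtain ⟨P, hP, hP0⟩ := hN0
    have hmem : xc P ∈ S := (hS _).mpr ⟨P, hP, hP0, rfl⟩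
    rw [← Finset.mul_prod_erase S (fun x => A.valuation x) hmem]
    refine one_lt_mul_of_lt_of_le' (hS1 _ hmem) ?_
    apply Finset.one_le_prod'
    intro x hx
    exact (hS1 x (Finset.mem_of_mem_erase hx)).le
  have h2 := one_le_of_fixed hA (fun σ hσ => prod_fixed hS (hstab σ hσ)) hr1
  have h3 : A.valuation (xc Q) ≤ 1 := by
    calc A.valuation (xc Q)
        ≤ A.valuation (xc Q) * (A.valuation (p : Ω) * A.valuation (∏ x ∈ S, x)) :=
          le_mul_of_one_le_right' h2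
      _ = A.valuation (p : Ω) * (A.valuation (xc Q) * A.valuation (∏ x ∈ S, x)) := by
        rw [mul_left_comm]
      _ ≤ 1 := h1
  exact absurd h3 (not_le.mpr (hlt _ hQ))

end Fermat.Agent.SSR
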